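-- Statement S20: `dim S₂(Γ₀(N))` equals the classical genus formula for `X₀(N)`.
-- Proof (team project, route by helper1): `M_*(Γ₀(N))` is generated over the level-one forms by
-- `ψ = [SL₂(ℤ) : Γ₀(N)]` homogeneous forms (`Lib/S20/Gens*`), trace duality identifies
-- `S_k` with `∏_j M_{k - 12 + wt j}(SL₂(ℤ))` (`Lib/S20/Dual*`), the weights are pinned down by the
-- eigenvalues of the coset permutations of `S`, `ST` at `i`, `ρ` (`Lib/S20/Elliptic`), by the
-- number of cusps (`Lib/S20/ConstTerm`) and by the combinatorics of `P¹(ℤ/N)`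
-- (`Lib/S20/ProjLine*`, `Comb*`).
import Fermat.Statements.S20
import Fermat.Agent.Lib.S20.DualE
import Fermat.Agent.Lib.S20.ConstTerm
import Fermat.Agent.Lib.S20.FinalCore
import Fermat.Agent.Lib.S20.ProjLineCoset
import Fermat.Agent.Lib.S20.CombFixQ
import Fermat.Agent.Lib.S20.CombCusp

set_option autoImplicit false
open CuspForm

namespace Fermat.Agent.S20

open Fermat.Agent.S20Lib Fermat.Agent.LibS23 in
theorem result (N : ℕ) [NeZero N] :
    (Module.finrank ℂ (CuspForm (CongruenceSubgroup.Gamma0 N) 2) : ℚ) = ModularCurve.genusFormula N := by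
  obtain ⟨G⟩ := exists_gens N
  have h := (finalCore_arith G.wt (mdim N) (sdim N) _ _ _ G.wt_even G.wt_nonneg G.mdim_eq G.sdim_eq
    mdim_zero (fun k hk => sdim_of_nonpos hk) G.sum_S G.sum_U exists_mdim_eq_sdim_add).1
  rw [card_Q, card_fix_sS, card_fix_sU, card_orbits_sT] at h
  simpa [sdim, ModularCurve.genusFormula] using h

end Fermat.Agent.S20
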