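import Fermat.Statements.S21
import Fermat.Agent.S20
import Fermat.Agent.Lib.S21.Injective
import Fermat.Agent.Lib.S21.ParBound

set_option autoImplicit false
open ModularCurve

namespace Fermat.Agent.S21

open Fermat.Agent.S21Lib ModularCurve.Period CongruenceSubgroup

theorem range_le (N : ℕ) [NeZero N] :
    LinearMap.range (ModularCurve.periodHomPair N)
      ≤ ModularCurve.Period.parabolicHoms ℂ (CongruenceSubgroup.Gamma0 N) ℂ := by
  obtain ⟨pml', hpml, hdef⟩ := periodHomPair_def N (existsPeriodMapLinear N)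
  rintro ψ ⟨⟨f₁, f₂⟩, rfl⟩
  rw [hdef]
  have h1 := periodMap_mem_parabolicHoms N f₁
  have h2 := periodMap_mem_parabolicHoms N f₂
  have h1' := charInvolution_mem_parabolicHoms N ℂ ℂ h1
  have h2' := charInvolution_mem_parabolicHoms N ℂ ℂ h2
  simp only [LinearMap.coprod_apply, LinearMap.comp_apply, hpml, LinearMap.add_apply,
    LinearMap.sub_apply, LinearMap.id_apply]
  exact Submodule.add_mem _ (Submodule.add_mem _ h1 h1') (Submodule.sub_mem _ h2 h2')

theorem result (N : ℕ) [NeZero N] :
    Function.Injective (ModularCurve.periodHomPair N)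
      ∧ LinearMap.range (ModularCurve.periodHomPair N)
          = ModularCurve.Period.parabolicHoms ℂ (CongruenceSubgroup.Gamma0 N) ℂ := by
  have hinj := periodHomPair_injective N
  refine ⟨hinj, ?_⟩
  haveI : Module.Finite ℂ (Additive (Gamma0 N) →+ ℂ) := finite_hom_gamma0 N
  haveI : Module.Finite ℂ (CuspForm (Gamma0 N) 2 × CuspForm (Gamma0 N) 2) :=
    Module.Finite.of_injective (ModularCurve.periodHomPair N) hinj
  haveI : Module.Finite ℂ (CuspForm (Gamma0 N) 2) :=
    Module.Finite.of_injective (LinearMap.inl ℂ (CuspForm (Gamma0 N) 2) (CuspForm (Gamma0 N) 2))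
      LinearMap.inl_injective
  refine Submodule.eq_of_le_of_finrank_le (range_le N) ?_
  rw [LinearMap.finrank_range_of_inj hinj, Module.finrank_prod]
  have h20 := Fermat.Agent.S20.result N
  have hb := parabolicHoms_finrank_le N
  rw [← h20] at hb
  have : (Module.finrank ℂ (parabolicHoms ℂ (Gamma0 N) ℂ) : ℚ)
      ≤ ((Module.finrank ℂ (CuspForm (Gamma0 N) 2) + Module.finrank ℂ (CuspForm (Gamma0 N) 2) : ℕ) : ℚ) := by
    push_cast
    linarith
  exact_mod_cast this

end Fermat.Agent.S21
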