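-- Statement S22: the Hecke algebra acting on cusp forms is a finite `ℤ`-module.
-- Proof: Eichler-Shimura period lattice (`Fermat.Agent.Lib.H4`), a finitely generated Hecke-stable
-- subgroup of the dual of the space of cusp forms which separates cusp forms.
import Fermat.Statements.S22
import Fermat.Agent.Lib.H4.Separation
import Fermat.Agent.Lib.H4.HeckeStable
import Fermat.Agent.Lib.S22.LatticeFinite

set_option autoImplicit false
open CuspForm

namespace Fermat.Agent.S22

theorem result (N : ℕ) [NeZero N] (k : ℤ) (S : Set ℕ) :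
    Module.Finite ℤ (CuspForm.heckeAlgebra N k S) := by
  rcases le_or_gt k 0 with hk | hk
  · exact Fermat.Agent.LibS22.heckeAlgebra_finite_of_weight_nonpos N hk S
  rcases Int.even_or_odd k with hev | hodd
  swap
  · exact Fermat.Agent.LibS22.heckeAlgebra_finite_of_weight_odd N hodd S
  obtain ⟨w, rfl⟩ : ∃ w : ℕ, k = (w : ℤ) + 2 := by
    obtain ⟨r, hr⟩ := hev
    refine ⟨(k - 2).toNat, ?_⟩
    omega
  exact Fermat.Agent.LibS22.heckeAlgebra_finite_of_dual_lattice N _ S (Fermat.Agent.H4.Lam N w)
    (Fermat.Agent.H4.Lam_fg N w)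
    (fun ℓ hℓ hℓN => Fermat.Agent.H4.Lam_heckeT hℓ hℓN)
    (fun q hqN _ => Fermat.Agent.H4.Lam_heckeU hqN)
    Fermat.Agent.H4.separation

end Fermat.Agent.S22
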