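-- Statement S23: `S₂(Γ₀(N))` has an integral structure.
-- Proof: Galois conjugation of `S₂(Γ₀(N))` (Lib/S23/Conj), rationality of complex numbers
-- fixed by all ring automorphisms (Lib/S23/FixAut), finiteness of the Hecke algebra (S22),
-- and the duality/descent argument (Lib/S23/Final).
import Fermat.Statements.S23
import Fermat.Agent.S22
import Fermat.Agent.Lib.S23.Conj
import Fermat.Agent.Lib.S23.FixAut
import Fermat.Agent.Lib.S23.Final

set_option autoImplicit false
open CuspForm

namespace Fermat.Agent.S23

theorem result (N : ℕ) [NeZero N] : CuspForm.HasIntegralStructure N 2 := by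
  exact Fermat.Agent.LibS23.hasIntegralStructure_of_conj N
    (fun σ f => Fermat.Agent.LibS23.cuspForm_conj N σ.toRingHom f)
    Fermat.Agent.S23Lib.exists_rat_of_forall_ringEquiv_fixed
    (Fermat.Agent.S22.result N 2 ∅)

end Fermat.Agent.S23
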