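import Fermat.Statements.S02

set_option autoImplicit false
open FreyPackage

namespace Fermat.Agent.S02

/-- Coprime case with `b` even. -/
theorem aux_b_even {a b c : ℤ} (ha : a ≠ 0) (hb : b ≠ 0) (hc : c ≠ 0) (p : ℕ) (pp : p.Prime)
    (hp5 : 5 ≤ p) (H : a ^ p + b ^ p = c ^ p) (hab : gcd a b = 1) (hb2 : (2 : ℤ) ∣ b) :
    Nonempty FreyPackage := by
  have p_odd : Odd p := pp.odd_of_ne_two (by omega)
  have ha_odd : ¬ (2 : ℤ) ∣ a := by
    intro h2a
    have h2 : (2 : ℤ) ∣ gcd a b := dvd_gcd h2a hb2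
    rw [hab] at h2
    norm_num at h2
  have hb2' : ((b : ℤ) : ZMod 2) = 0 := (ZMod.intCast_zmod_eq_zero_iff_dvd b 2).2 hb2
  have ha4 : a % 4 = 1 ∨ a % 4 = 3 := by
    have : a % 2 = 1 := by omega
    omega
  rcases ha4 with h1 | h3
  · -- replace (a, b, c) by (-a, -b, -c)
    refine ⟨{ a := -a, b := -b, c := -c, ha0 := neg_ne_zero.2 ha, hb0 := neg_ne_zero.2 hb,
              hc0 := neg_ne_zero.2 hc, p := p, pp := pp, hp5 := hp5, hFLT := ?_, hgcdab := ?_,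
              ha4 := ?_, hb2 := ?_ }⟩
    · rw [p_odd.neg_pow, p_odd.neg_pow, p_odd.neg_pow, ← H]; ring
    · rw [gcd_neg, neg_gcd]; exact hab
    · have h4 : ((-a : ℤ) : ZMod 4) = ((3 : ℤ) : ZMod 4) := by
        rw [ZMod.intCast_eq_intCast_iff_dvd_sub]
        have : (4 : ℤ) ∣ 3 - -a := by omega
        exact_mod_cast this
      simpa using h4
    · rw [Int.cast_neg, hb2', neg_zero]
  · refine ⟨{ a := a, b := b, c := c, ha0 := ha, hb0 := hb,
              hc0 := hc, p := p, pp := pp, hp5 := hp5, hFLT := H, hgcdab := hab,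
              ha4 := ?_, hb2 := hb2' }⟩
    have h4 : ((a : ℤ) : ZMod 4) = ((3 : ℤ) : ZMod 4) := by
      rw [ZMod.intCast_eq_intCast_iff_dvd_sub]
      have : (4 : ℤ) ∣ 3 - a := by omega
      exact_mod_cast this
    simpa using h4

/-- Coprime case. -/
theorem aux_coprime {a b c : ℤ} (ha : a ≠ 0) (hb : b ≠ 0) (hc : c ≠ 0) (p : ℕ) (pp : p.Prime)
    (hp5 : 5 ≤ p) (H : a ^ p + b ^ p = c ^ p) (hab : gcd a b = 1) :
    Nonempty FreyPackage := by
  have p_odd : Odd p := pp.odd_of_ne_two (by omega)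
  have hp0 : p ≠ 0 := by omega
  by_cases hb2 : (2 : ℤ) ∣ b
  · exact aux_b_even ha hb hc p pp hp5 H hab hb2
  by_cases ha2 : (2 : ℤ) ∣ a
  · refine aux_b_even hb ha hc p pp hp5 (by rw [add_comm]; exact H) ?_ ha2
    rw [gcd_comm]; exact hab
  -- both odd, so c is even
  have hc2 : (2 : ℤ) ∣ c := by
    have hao : Odd a := by rw [Int.odd_iff]; omega
    have hbo : Odd b := by rw [Int.odd_iff]; omega
    have hce : Even (c ^ p) := by
      rw [← H]
      exact (hao.pow).add_odd (hbo.pow)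
    have : Even c := (Int.even_pow.1 hce).1
    exact even_iff_two_dvd.1 this
  have hac : gcd a c = 1 := by
    rw [← gcdab_eq_gcdac (Nat.pos_of_ne_zero hp0) H]; exact hab
  refine aux_b_even (a := a) (b := -c) (c := -b) ha (neg_ne_zero.2 hc) (neg_ne_zero.2 hb) p pp hp5
    ?_ ?_ ?_
  · rw [p_odd.neg_pow, p_odd.neg_pow, ← H]; ring
  · rw [gcd_neg]; exact hac
  · exact (dvd_neg).2 hc2

theorem result (a b c : ℤ) (ha : a ≠ 0) (hb : b ≠ 0) (hc : c ≠ 0) (p : ℕ) (pp : p.Prime) (hp5 : 5 ≤ p) (H : a ^ p + b ^ p = c ^ p) : Nonempty FreyPackage := by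
  have hp0 : p ≠ 0 := by omega
  set d : ℤ := (Int.gcd a b : ℤ) with hd
  have hdpos : 0 < Int.gcd a b := Int.gcd_pos_of_ne_zero_left b ha
  have hd0 : d ≠ 0 := by
    rw [hd]; exact_mod_cast hdpos.ne'
  obtain ⟨a', ha'⟩ : d ∣ a := Int.gcd_dvd_left a b
  obtain ⟨b', hb'⟩ : d ∣ b := Int.gcd_dvd_right a b
  have hdc : d ∣ c := by
    rw [← Int.pow_dvd_pow_iff hp0, ← H]
    exact dvd_add (pow_dvd_pow_of_dvd ⟨a', ha'⟩ p) (pow_dvd_pow_of_dvd ⟨b', hb'⟩ p)
  obtain ⟨c', hc'⟩ := hdc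
  have ha'0 : a' ≠ 0 := by rintro rfl; exact ha (by rw [ha', mul_zero])
  have hb'0 : b' ≠ 0 := by rintro rfl; exact hb (by rw [hb', mul_zero])
  have hc'0 : c' ≠ 0 := by rintro rfl; exact hc (by rw [hc', mul_zero])
  have H' : a' ^ p + b' ^ p = c' ^ p := by
    have hdp : d ^ p ≠ 0 := pow_ne_zero p hd0
    apply mul_left_cancel₀ hdp
    rw [mul_add, ← mul_pow, ← mul_pow, ← mul_pow, ← ha', ← hb', ← hc', H]
  have hab' : gcd a' b' = 1 := by
    have h1 : Int.gcd (a / d) (b / d) = 1 := Int.gcd_div_gcd_div_gcd hdpos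
    have e1 : a / d = a' := by rw [ha']; exact Int.mul_ediv_cancel_left _ hd0
    have e2 : b / d = b' := by rw [hb']; exact Int.mul_ediv_cancel_left _ hd0
    rw [e1, e2] at h1
    rw [← Int.coe_gcd, h1]; rfl
  exact aux_coprime ha'0 hb'0 hc'0 p pp hp5 H' hab'

end Fermat.Agent.S02
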