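import Fermat.Statements.S05
import Fermat.Agent.Lib.S05.Frey
import Fermat.Agent.Lib.S05.RatVal
import Fermat.Agent.Lib.S05.Model

set_option autoImplicit false
open WeierstrassCurve WeierstrassCurve.Affine WeierstrassCurve.Affine.Point
open CuspForm ModularFormClass UpperHalfPlane
open FreyPackage

namespace Fermat.Agent.S05

open Fermat.Agent.S05Lib Fermat.Agent.S05Lib.Shift

local notation "Qbar" => AlgebraicClosure ℚ

theorem valuation_two_eq_one (A : ValuationSubring Qbar) {q : ℕ} (hq : q.Prime) (hq2 : q ≠ 2)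
    (hA : A.LiesOverPrime q) : A.valuation (2 : Qbar) = 1 := by
  have h := valuation_intCast_eq_one A hq hA 2 (by
    intro h
    have h2 : q ∣ 2 := by exact_mod_cast h
    exact hq2 ((Nat.prime_dvd_prime_iff_eq hq Nat.prime_two).mp h2))
  simpa using h

theorem valuation_prime_eq_one (A : ValuationSubring Qbar) {q p : ℕ} (hq : q.Prime)
    (hp : p.Prime) (hqp : q ≠ p) (hA : A.LiesOverPrime q) : A.valuation (p : Qbar) = 1 := by
  have h := valuation_intCast_eq_one A hq hA (p : ℤ) (by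
    intro h
    have h2 : q ∣ p := by exact_mod_cast h
    exact hqp ((Nat.prime_dvd_prime_iff_eq hq hp).mp h2))
  simpa using h

theorem valuation_q_lt_one (A : ValuationSubring Qbar) {q : ℕ} (hA : A.LiesOverPrime q) :
    A.valuation (q : Qbar) < 1 :=
  (ValuationSubring.mem_nonunits_iff A).mp hA

theorem valuation_rat_eq_one (A : ValuationSubring Qbar) {q : ℕ} (hq : q.Prime)
    (hA : A.LiesOverPrime q) {r : ℚ} (hr : r ≠ 0) (hv : padicValRat q r = 0) :
    A.valuation (algebraMap ℚ Qbar r) = 1 := by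
  rw [valuation_rat_eq_zpow A hq hA r hr, hv, zpow_zero]

theorem valuation_rat_le_one (A : ValuationSubring Qbar) {q : ℕ} (hq : q.Prime)
    (hA : A.LiesOverPrime q) {r : ℚ} (hv : 0 ≤ padicValRat q r) :
    A.valuation (algebraMap ℚ Qbar r) ≤ 1 := by
  by_cases hr : r = 0
  · rw [hr, _root_.map_zero, _root_.map_zero]
    exact zero_le_one
  · rw [valuation_rat_eq_zpow A hq hA r hr]
    obtain ⟨k, hk⟩ := Int.eq_ofNat_of_zero_le hv
    rw [hk, zpow_natCast]
    exact pow_le_one' (valuation_q_lt_one A hA).le k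

/-- The model curve with good reduction at `q`. -/
theorem model_good (p q : ℕ) (hp : p.Prime) (hq : q.Prime) (hq2 : q ≠ 2) (hqp : q ≠ p)
    (a2 a4 : ℚ) (h : IsGoodAt q a2 a4) :
    Point.GaloisRepUnramifiedAt (K := Qbar) ℚ (modelCurve a2 a4) p q := by
  obtain ⟨h2, h40, h4, hd0, hd⟩ := h
  refine unramifiedAt_of_good (modelCurve a2 a4) p q rfl rfl rfl ?_
  intro A hA
  exact ⟨valuation_two_eq_one A hq hq2 hA, valuation_prime_eq_one A hq hp hqp hA,
    valuation_rat_le_one A hq hA h2, valuation_rat_eq_one A hq hA h40 h4,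
    valuation_rat_eq_one A hq hA hd0 hd⟩

/-- The model curve with multiplicative reduction at `q` and `p ∣ v_q(a₄)`. -/
theorem model_mult (p q : ℕ) (hp : p.Prime) (hq : q.Prime) (hq2 : q ≠ 2) (hqp : q ≠ p)
    (a2 a4 : ℚ) (h : IsMultAt q p a2 a4) :
    Point.GaloisRepUnramifiedAt (K := Qbar) ℚ (modelCurve a2 a4) p q := by
  obtain ⟨h20, h2, h40, k, hk, h4⟩ := h
  refine unramifiedAt_of_mult (modelCurve a2 a4) p q rfl rfl rfl h40 ?_
  intro A hA
  have hv4 : A.valuation (algebraMap ℚ Qbar a4) = A.valuation (q : Qbar) ^ (p * k) := by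
    rw [valuation_rat_eq_zpow A hq hA a4 h40, h4, zpow_natCast]
  refine ⟨valuation_two_eq_one A hq hq2 hA, valuation_prime_eq_one A hq hp hqp hA,
    valuation_rat_eq_one A hq hA h20 h2, ?_, k, hv4⟩
  have hv4' : A.valuation (algebraMap ℚ Qbar (modelCurve a2 a4).a₄) =
      A.valuation (q : Qbar) ^ (p * k) := hv4
  rw [hv4']
  exact pow_lt_one' (valuation_q_lt_one A hA) (Nat.mul_ne_zero hp.ne_zero hk.ne')

theorem result (P : FreyPackage) {q : ℕ} (hq : q.Prime) (hq2 : q ≠ 2) (hqp : q ≠ P.p) : P.GaloisRepUnramifiedAt q :=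
  frey_unramified_of_models P hq hq2
    (fun a2 a4 h => model_good P.p q P.pp hq hq2 hqp a2 a4 h)
    (fun a2 a4 h => model_mult P.p q P.pp hq hq2 hqp a2 a4 h)

end Fermat.Agent.S05
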