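import Fermat.Statements.S07
import Fermat.Prelude.Thm_ModularForm_sturm_bound_Gamma0
import Fermat.Prelude.Thm_CongruenceSubgroup_one_mem_strictPeriods_Gamma0

set_option autoImplicit false
open WeierstrassCurve WeierstrassCurve.Affine WeierstrassCurve.Affine.Point
open CuspForm ModularFormClass UpperHalfPlane
open ModularForm

namespace Fermat.Agent.S07

open scoped MatrixGroups

/-- First column of an integral matrix, reduced mod 2. -/
def colMod2 (g : SL(2, ℤ)) : ZMod 2 × ZMod 2 := ((g 0 0 : ℤ), (g 1 0 : ℤ))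

lemma mem_of_colMod2_eq {x y : SL(2, ℤ)} (h : colMod2 x = colMod2 y) :
    x⁻¹ * y ∈ CongruenceSubgroup.Gamma0 2 := by
  rw [CongruenceSubgroup.Gamma0_mem]
  simp only [colMod2, Prod.mk.injEq] at h
  obtain ⟨h0, h1⟩ := h
  have : ((x⁻¹ * y : SL(2, ℤ)) 1 0 : ℤ) = -x 1 0 * y 0 0 + x 0 0 * y 1 0 := by
    simp [Matrix.SpecialLinearGroup.coe_inv, Matrix.adjugate_fin_two, Matrix.mul_apply,
      Fin.sum_univ_two]
  rw [this]
  push_cast
  rw [← h0, ← h1]
  ring

lemma index_Gamma0_two_le : (CongruenceSubgroup.Gamma0 2).index ≤ 4 := by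
  classical
  have hinj : Function.Injective
      (fun q : SL(2, ℤ) ⧸ CongruenceSubgroup.Gamma0 2 => colMod2 q.out) := by
    intro q q' h
    have := mem_of_colMod2_eq h
    rw [← QuotientGroup.out_eq' q, ← QuotientGroup.out_eq' q']
    exact QuotientGroup.eq.mpr this
  have := Nat.card_le_card_of_injective _ hinj
  simpa [Subgroup.index] using this

theorem result (f : CuspForm (CongruenceSubgroup.Gamma0 2) 2) : f = 0 := by
  apply CuspForm.toModularFormₗ_injective
  rw [_root_.map_zero]
  apply ModularForm.sturm_bound_Gamma0 2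
  intro n hn
  have hidx := index_Gamma0_two_le
  have : n = 0 := by omega
  subst this
  exact CuspFormClass.qExpansion_coeff_zero f one_pos
    (CongruenceSubgroup.one_mem_strictPeriods_Gamma0 2)

end Fermat.Agent.S07
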