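import Fermat.Statements.S10
import Fermat.Agent.Lib.Kummer.CaseI
import Fermat.Agent.Lib.Kummer.CaseII
import Fermat.Agent.Lib.Kummer.PID7
import Fermat.Agent.Lib.Kummer.PID13
import Fermat.Agent.Lib.Kummer.KummerUnits

set_option autoImplicit false
open WeierstrassCurve WeierstrassCurve.Affine WeierstrassCurve.Affine.Point
open CuspForm ModularFormClass UpperHalfPlane
open FreyPackage

namespace Fermat.Agent.S10

open NumberField Fermat.Agent.Kummer

/-- Fermat's Last Theorem for the exponent `5`. -/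
theorem flt_five : FermatLastTheoremFor 5 :=
  haveI : Fact (Nat.Prime 5) := ⟨by norm_num⟩
  haveI : IsCyclotomicExtension {5} ℚ (CyclotomicField 5 ℚ) :=
    CyclotomicField.isCyclotomicExtension 5 ℚ
  haveI : IsPrincipalIdealRing (𝓞 (CyclotomicField 5 ℚ)) :=
    IsCyclotomicExtension.Rat.five_pid (CyclotomicField 5 ℚ)
  flt_of_pid_of_kummer (by norm_num) (CyclotomicField 5 ℚ) (kummer_five _) caseI_five

/-- Fermat's Last Theorem for the exponent `7`. -/
theorem flt_seven : FermatLastTheoremFor 7 :=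
  haveI : Fact (Nat.Prime 7) := ⟨by norm_num⟩
  haveI : IsCyclotomicExtension {7} ℚ (CyclotomicField 7 ℚ) :=
    CyclotomicField.isCyclotomicExtension 7 ℚ
  haveI : IsPrincipalIdealRing (𝓞 (CyclotomicField 7 ℚ)) := pid_seven (CyclotomicField 7 ℚ)
  flt_of_pid_of_kummer (by norm_num) (CyclotomicField 7 ℚ) (kummer_seven _) caseI_seven

/-- Fermat's Last Theorem for the exponent `13`. -/
theorem flt_thirteen : FermatLastTheoremFor 13 :=
  haveI : Fact (Nat.Prime 13) := ⟨by norm_num⟩
  haveI : IsCyclotomicExtension {13} ℚ (CyclotomicField 13 ℚ) :=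
    CyclotomicField.isCyclotomicExtension 13 ℚ
  haveI : IsPrincipalIdealRing (𝓞 (CyclotomicField 13 ℚ)) := pid_thirteen (CyclotomicField 13 ℚ)
  flt_of_pid_of_kummer (by norm_num) (CyclotomicField 13 ℚ) (kummer_thirteen _) caseI_thirteen

theorem no_freyPackage_of_flt (P : FreyPackage) (h : FermatLastTheoremFor P.p) : False :=
  (fermatLastTheoremFor_iff_int.mp h) P.a P.b P.c P.ha0 P.hb0 P.hc0 P.hFLT

theorem result (P : FreyPackage) (hp : P.p = 5 ∨ P.p = 7 ∨ P.p = 13) : ¬ HasGaloisStableCofixedLine (K := AlgebraicClosure ℚ) ℚ P.freyCurve P.p := by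
  exfalso
  refine no_freyPackage_of_flt P ?_
  rcases hp with h | h | h <;> rw [h]
  · exact flt_five
  · exact flt_seven
  · exact flt_thirteen

end Fermat.Agent.S10
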