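import Fermat.Statements.S11
import Fermat.Agent.Lib.Kummer.CaseI
import Fermat.Agent.Lib.Kummer.CaseII
import Fermat.Agent.Lib.Kummer.PID11
import Fermat.Agent.Lib.Kummer.KummerUnits

set_option autoImplicit false
open WeierstrassCurve WeierstrassCurve.Affine WeierstrassCurve.Affine.Point
open CuspForm ModularFormClass UpperHalfPlane
open FreyPackage

namespace Fermat.Agent.S11

open NumberField Fermat.Agent.Kummer

/-- Fermat's Last Theorem for the exponent `11` (Kummer: `ℤ[ζ₁₁]` is a PID, Kummer's lemma
holds, case I by Sophie Germain with the auxiliary prime `23`). -/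
theorem flt_eleven : FermatLastTheoremFor 11 :=
  haveI : Fact (Nat.Prime 11) := ⟨by norm_num⟩
  haveI : IsCyclotomicExtension {11} ℚ (CyclotomicField 11 ℚ) :=
    CyclotomicField.isCyclotomicExtension 11 ℚ
  haveI : IsPrincipalIdealRing (𝓞 (CyclotomicField 11 ℚ)) := pid_eleven (CyclotomicField 11 ℚ)
  flt_of_pid_of_kummer (by norm_num) (CyclotomicField 11 ℚ) (kummer_eleven _) caseI_eleven

theorem no_freyPackage_of_flt (P : FreyPackage) (h : FermatLastTheoremFor P.p) : False :=
  (fermatLastTheoremFor_iff_int.mp h) P.a P.b P.c P.ha0 P.hb0 P.hc0 P.hFLT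

theorem result (P : FreyPackage) (hp : P.p = 11) : ¬ HasGaloisStableCofixedLine (K := AlgebraicClosure ℚ) ℚ P.freyCurve P.p := by
  exfalso
  refine no_freyPackage_of_flt P ?_
  rw [hp]
  exact flt_eleven

end Fermat.Agent.S11
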