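-- Statement S16: the index of the image of the Eisenstein ideal in the integral Hecke algebra of
-- weight 2 and prime level p equals (p - 1) / gcd(p - 1, 12).
-- Proof: the frame `fr16_main'` (Lib/S16/Frame.lean) from the upper bound `uf16_done`
-- (Lib/S16/UpperDone.lean) and the lower bound `rt16_lower` (Lib/S16/Root.lean).
import Fermat.Statements.S16
import Fermat.Agent.Lib.S16.Frame
import Fermat.Agent.Lib.S16.UpperDone
import Fermat.Agent.Lib.S16.Root

set_option autoImplicit false
open ModularCurve CuspForm
open ModularCurve

namespace Fermat.Agent.S16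

theorem result
    (p : ℕ) [Fact p.Prime] :
    Nat.card (↥(heckeLatticeAlgebra p ∅) ⧸
        Ideal.map ((latticeRestrictHom p ∅).toRingHom.comp (heckeEvalForms p 2))
          (eisensteinIdeal p)) =
      eisensteinNumerator p :=
  Fermat.Agent.S16Lib.fr16_main' p (Fermat.Agent.S16Lib.uf16_done p)
    (Fermat.Agent.S16Lib.rt16_lower p)

end Fermat.Agent.S16
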