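import Fermat.Statements.S18
import Fermat.Agent.Lib.S18.P1Const
import Fermat.Agent.Lib.S18.DsGauss
import Fermat.Agent.Lib.S18.DsLift
import Fermat.Agent.Lib.S18.AsNormal
import Fermat.Agent.Lib.S18.AsConcrete
import Fermat.Agent.Lib.S18.AsConst
import Fermat.Agent.Lib.S18.AsNoeth
import Fermat.Agent.Lib.S18.AsLocalHyp
import Fermat.Agent.Lib.S18.AsMachine
import Fermat.Agent.Lib.S18.AsUnr
import Fermat.Agent.Lib.S18.AsSep
import Fermat.Agent.Lib.S18.Na
import Fermat.Agent.Lib.S18.Nb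
import Fermat.Agent.Lib.S18.H2Main
import Fermat.Agent.Lib.S18.H3Main
import Fermat.Agent.Lib.S18.AsConcBasic
import Fermat.Agent.Lib.S18.AsConcFin
import Fermat.Agent.Lib.S18.AsConcGss
import Fermat.Agent.Lib.S18.AsConcUnr
import Fermat.Agent.Lib.S18.GrSep
import Fermat.Agent.Lib.S18.GrFinal
import Fermat.Agent.Lib.S18.AsStarL

set_option autoImplicit false
open ModularCurve

namespace Fermat.Agent.S18

theorem result (N : ℕ) [NeZero N] {ℓ : ℕ}
    [Fact ℓ.Prime] (hℓN : ¬ ℓ ∣ N) (A : ValuationSubring (AlgebraicClosure ℚ)) (hA : A.LiesOverPrime ℓ)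
    (h : ModularCurve.ReductionInputsModL A N) (m : ℕ) (hm : ¬ ℓ ∣ m) (z : ModularCurve.JZero N)
    (hmz : m • z = 0) (hz : ModularCurve.reductionModL A N z = 0) :
    z = 0 := by
  have hnorm : Fermat.Agent.S18Lib.as18_normal_stmt :=
    Fermat.Agent.S18Lib.as18_normal Fermat.Agent.S18Lib.na_proof Fermat.Agent.S18Lib.nb_proof
      Fermat.Agent.S18Lib.as18_unr Fermat.Agent.S18Lib.as18_sep
  have hmach : Fermat.Agent.S18Lib.as18_machine_stmt :=
    Fermat.Agent.S18Lib.as18_machine Fermat.Agent.S18Lib.as18_local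
      Fermat.Agent.S18Lib.as18_noeth Fermat.Agent.S18Lib.as18_const
  have hconc : Fermat.Agent.S18Lib.as18_concrete_stmt :=
    Fermat.Agent.S18Lib.as18_concrete Fermat.Agent.S18Lib.h2_main Fermat.Agent.S18Lib.h3_main
      Fermat.Agent.S18Lib.ac18_coord Fermat.Agent.S18Lib.ac18_units
      Fermat.Agent.S18Lib.ac18_basic Fermat.Agent.S18Lib.ac18_fin
      (Fermat.Agent.S18Lib.ac18_gss Fermat.Agent.S18Lib.gr18_sep) Fermat.Agent.S18Lib.ac18_unr
  have hstar : Fermat.Agent.S18Lib.p1_star_stmt N ℓ A :=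
    Fermat.Agent.S18Lib.as18_starL hmach hnorm hconc Fermat.Agent.S18Lib.gr18_uniq
      Fermat.Agent.S18Lib.h2_main Fermat.Agent.S18Lib.h3_main N ℓ hℓN A hA
  exact Fermat.Agent.S18Lib.p1_frame' N hℓN A hA hstar (Fermat.Agent.S18Lib.ds18_gauss N A h)
    (Fermat.Agent.S18Lib.ds18_lift N A) h m hm z hmz hz

end Fermat.Agent.S18
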