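-- Statement S24: the genus of the function field of `X₀(N)` over `ℚ̄` is the classical genus
-- formula.  Proof (team project, route by helper3): Riemann–Hurwitz for `F / ℚ̄(j)`.
import Fermat.Statements.S24
import Fermat.Agent.S20
import Fermat.Agent.Lib.S24.Assembly
import Fermat.Agent.Lib.S24.Counts
import Fermat.Agent.Lib.S24.FibreInf
import Fermat.Agent.Lib.S24.FibreFinite

set_option autoImplicit false
open ModularCurve

namespace Fermat.Agent.S24

open Fermat.Agent.S24Lib Fermat.Agent.S20Lib Fermat.Agent.LibS23 in
theorem result (N : ℕ) [NeZero N]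
    [AlgebraicCurve.HasCanonicalDivisor (K := AlgebraicClosure ℚ) (F := ↥(ModularCurve.modularFunctionFieldBar N))] :
    (AlgebraicCurve.genus (AlgebraicClosure ℚ) ↥(ModularCurve.modularFunctionFieldBar N) : ℚ)
      = ModularCurve.genusFormula N := by
  haveI : Module.Finite (IntermediateField.adjoin Kb {JF N}) (FN N) := finite_JF N
  have h1728 : (1728 : Kb) ≠ 0 := by norm_num
  have hfin : ∀ c : Kb, DiffOrdAt Kb (JF N - algebraMap Kb (FN N) c) := by
    intro c
    by_cases hc0 : c = 0
    · subst hc0
      exact (places_zero N).2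
    · by_cases hc1 : c = 1728
      · subst hc1
        exact (places_1728 N).2
      · exact (places_generic N c hc0 hc1).2.2
  have hS20 := Fermat.Agent.S20.result N
  have hcount : (Module.finrank (IntermediateField.adjoin Kb {JF N}) (FN N) : ℤ)
        - Nat.card (zeroPlaces Kb (JF N - algebraMap Kb (FN N) 0))
        - Nat.card (zeroPlaces Kb (JF N - algebraMap Kb (FN N) 1728))
        - Nat.card (zeroPlaces Kb (JF N)⁻¹)
      = 2 * ((Module.finrank ℂ (CuspForm (CongruenceSubgroup.Gamma0 N) 2) : ℕ) : ℤ) - 2 := by
    rw [finrank_JF, Nat.card_eq_fintype_card, card_Q, (places_zero N).1, (places_1728 N).1,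
      (places_inf N).1]
    exact counts_arith _ _ _ _ _ _ _ _ (counts_orbits_sS N) (counts_orbits_sU N)
      (counts_orbits_sT N) hS20
  have hgen := genus_of_counts (K := Kb) (F := FN N) (JF N) (transcendental_JF N) hfin
    (places_inf N).2 0 1728 h1728.symm
    (fun c hc0 hc1 => (places_generic N c hc0 hc1).2.1) _ hcount
  have : AlgebraicCurve.genus (AlgebraicClosure ℚ) ↥(ModularCurve.modularFunctionFieldBar N)
      = Module.finrank ℂ (CuspForm (CongruenceSubgroup.Gamma0 N) 2) := hgen
  rw [this]
  exact hS20

end Fermat.Agent.S24
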