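-- Statement S28 (row 27): Igusa - for a prime ℓ not dividing N, the base change of the Igusa model of X₀(N)
-- over ℤ₍ℓ₎ to any field of characteristic ℓ is integral.
-- Proof: Fermat/Agent/Lib/S28 (team project, architect helper2).  `asm_of_chunks` (Assembly.lean) derives the
-- statement from: A4 `exists_field_phiData` (PhiField.lean: modular polynomials over k = 𝓞/𝔪), SM `sm_not_poly`
-- (SmallChar.lean: characteristic 2, 3), C2 `c2_step_coprime` (ChainLift.lean), CA `ca_isDomain_charts`
-- (CAMain.lean: Gauss valuation, chart ⊗ K is a domain), plus PrimeStep, StepP, IG, DegQ and the scheme glue Glue.lean.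
import Fermat.Statements.S28
import Fermat.Agent.Lib.S28.Assembly
import Fermat.Agent.Lib.S28.SmallChar
import Fermat.Agent.Lib.S28.ChainLift
import Fermat.Agent.Lib.S28.PhiField
import Fermat.Agent.Lib.S28.CAMain

set_option autoImplicit false
open AlgebraicGeometry CategoryTheory CategoryTheory.Limits ModularCurve ModularCurve.IgusaScheme
noncomputable section
set_option autoImplicit false
open ModularCurve ModularCurve.IgusaScheme

namespace Fermat.Agent.S28

open Fermat.Agent.S28Lib in
set_option maxHeartbeats 4000000 in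
set_option synthInstance.maxHeartbeats 400000 in
theorem result
    (N : ℕ) [NeZero N] (ℓ : ℕ) [Fact ℓ.Prime] (hℓN : ¬ ℓ ∣ N)
    (K : Type) [Field K] [CharP K ℓ] [Algebra ↥(GaloisRep.ratLocalizedAt ℓ) K] :
    IsIntegral ↑(pullback (igusaTo N ℓ)
      (Spec.map (CommRingCat.ofHom (algebraMap ↥(GaloisRep.ratLocalizedAt ℓ) K)))) :=
  asm_of_chunks N ℓ hℓN K (exists_field_phiData ℓ)
    (fun k _ _ l _ hl p hp hpl P => sm_not_poly k l hl p hp hpl P)
    (fun hp D hP1 M hM hpM hΦ => c2_step_coprime hp D hP1 M hM hpM hΦ)
    (fun k _ _ n m hmF hli hfin hn => ca_isDomain_charts N ℓ k n m hmF hli hfin hn K)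

end Fermat.Agent.S28
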