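-- Statement S49 (row 44): Deligne-Serre lifting lemma. The statement below is byte-identical to the
-- frozen statement FLT.AbstractIntegralStructure.FermatFrozen.S49 (Fermat/Statements/S49.lean).
import Fermat.Statements.S49
import Fermat.Agent.Lib.S49.Lift
import Fermat.Agent.Lib.S49.Forms

set_option autoImplicit false
open CuspForm EisensteinWeightOne CongruenceSubgroup ModularFormClass
open FLT FLT.AbstractIntegralStructure

namespace Fermat.Agent.S49

open Fermat.Agent.LibS49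

theorem result
    {N : ℕ} [NeZero N] (h : CuspForm.HasIntegralBasis N) {a : ℕ → ℤ}
    (heig : FormalHecke.IsEigensystem
      (fun ℓ => if ℓ ∣ N then 0 else ((chiNegThree ℓ : ℤ) : ℤ)) a)
    (hreal : CuspForm.IsLatticeRealized N a) :
    ∃ (f : CuspForm (Gamma0 N) 2) (_ : f.IsNormalizedEigenform)
      (𝔪' : Ideal (integralClosure ℤ ℂ)), 𝔪'.IsMaximal ∧
      ((3 : ℕ) : integralClosure ℤ ℂ) ∈ 𝔪' ∧
      ∀ (ℓ : ℕ) (_ : ℓ.Prime) (_ : ¬ ℓ ∣ N),
        ∃ c : integralClosure ℤ ℂ, (c : ℂ) = ModularFormClass.qCoeff f ℓ ∧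
          c - (a ℓ : integralClosure ℤ ℂ) ∈ 𝔪' := by
  classical
  obtain ⟨ha1, harel⟩ := heig
  obtain ⟨f0, hf0int, af, haf, haf3⟩ := hreal
  -- `af ≡ a (mod 3)`
  have hafa : ∀ n : ℕ, ((af n : ℤ) : ZMod 3) = ((a n : ℤ) : ZMod 3) := by
    intro n
    have h1 : (3 : ℤ) ∣ af n - a n := by
      have := dvd_add (haf3 n) (three_dvd_coeff_bridgeProduct_sub a n)
      simpa using this
    have h2 := (ZMod.intCast_zmod_eq_zero_iff_dvd (af n - a n) 3).mpr h1
    push_cast at h2
    exact sub_eq_zero.mp h2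
  have hchi : ∀ n : ℕ, ((chiNegThree n : ℤ) : ZMod 3) = ((n : ℕ) : ZMod 3) := by
    intro n
    have h2 := (ZMod.intCast_zmod_eq_zero_iff_dvd (chiNegThree n - (n : ℤ)) 3).mpr
      (three_dvd_chiNegThree_sub n)
    push_cast at h2
    exact sub_eq_zero.mp h2
  -- the lattice
  set L : Submodule ℤ (CuspForm (Gamma0 N) 2) := CuspForm.intLattice N 2 with hL
  have hqL : qIntegralSet N ⊆ (L : Set (CuspForm (Gamma0 N) 2)) := by
    intro f hf
    rw [SetLike.mem_coe, hL, mem_intLattice_iff]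
    intro n
    obtain ⟨m, hm⟩ := Subring.mem_bot.mp (hf n)
    exact ⟨m, hm.symm⟩
  have hLspan : Submodule.span ℂ (L : Set (CuspForm (Gamma0 N) 2)) = ⊤ := by
    rw [eq_top_iff, ← h]
    exact Submodule.span_mono hqL
  have hf0L : f0 ∈ L := hqL hf0int
  -- the Hecke operators, indexed by primes
  let T : {p : ℕ // p.Prime} → Module.End ℂ (CuspForm (Gamma0 N) 2) := fun p =>
    if hpN : p.1 ∣ N then CuspForm.heckeULin 2 hpN else CuspForm.heckeTLin 2 p.2 hpN
  have hTgen : ∀ p, T p ∈ CuspForm.heckeGenerators N 2 ∅ := by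
    intro p
    by_cases hpN : p.1 ∣ N
    · simp only [T, dif_pos hpN]
      exact CuspForm.heckeULin_mem_heckeGenerators p.2 hpN (Set.notMem_empty _)
    · simp only [T, dif_neg hpN]
      exact CuspForm.heckeTLin_mem_heckeGenerators p.2 hpN (Set.notMem_empty _)
  have hT : ∀ p q, Commute (T p) (T q) := fun p q =>
    CuspForm.commute_of_mem_heckeGenerators (hTgen p) (hTgen q)
  have hLstab : ∀ p, ∀ x ∈ L, T p x ∈ L := fun p x hx =>
    CuspForm.mem_intLattice_of_mem_heckeAlgebra (by norm_num)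
      (Algebra.subset_adjoin (hTgen p)) hx
  -- `f0` is not in `3L`
  have hf0' : ∀ g ∈ L, f0 ≠ (3 : ℤ) • g := by
    intro g hg hfg
    obtain ⟨m, hm⟩ := (mem_intLattice_iff g).mp hg 1
    have h1 : ((af 1 : ℤ) : ℂ) = ((3 * m : ℤ) : ℂ) := by
      rw [haf 1, hfg, qCoeff_zsmul', hm]
      push_cast; ring
    have h2 : af 1 = 3 * m := by exact_mod_cast h1
    have h3 := hafa 1
    rw [h2, ha1] at h3
    have h4 : ((3 : ℤ) : ZMod 3) = 0 := by decide
    push_cast at h3
    rw [show ((3 : ZMod 3)) = 0 from by decide, zero_mul] at h3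
    exact zero_ne_one h3
  -- `f0` is an eigenvector modulo `3L`
  have hq : ∀ j : ℕ, qCoeff (⇑f0) j = ((af j : ℤ) : ℂ) := fun j => (haf j).symm
  have ha : ∀ p : {p : ℕ // p.Prime}, ∃ g ∈ L, T p f0 - (a p.1) • f0 = (3 : ℤ) • g := by
    intro p
    apply exists_mem_intLattice_eq_three_smul
    intro n
    have hrel := harel p.1 p.2 n
    beta_reduce at hrel
    by_cases hpN : p.1 ∣ N
    · simp only [T, dif_pos hpN]
      rw [if_pos hpN, zero_mul, add_zero] at hrel
      have h3 : (3 : ℤ) ∣ af (n * p.1) - a p.1 * af n := by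
        apply (ZMod.intCast_zmod_eq_zero_iff_dvd _ 3).mp
        push_cast
        rw [hafa, hafa, mul_comm n, hrel]
        push_cast; ring
      obtain ⟨m, hm⟩ := h3
      refine ⟨m, ?_⟩
      rw [qCoeff_sub', qCoeff_zsmul', qCoeff_heckeULin p.2 hpN]
      simp only [hq]
      rw [← hm]
      push_cast; ring
    · simp only [T, dif_neg hpN]
      rw [if_neg hpN] at hrel
      have h3 : (3 : ℤ) ∣ af (n * p.1) + (if p.1 ∣ n then (p.1 : ℤ) * af (n / p.1) else 0)
          - a p.1 * af n := by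
        apply (ZMod.intCast_zmod_eq_zero_iff_dvd _ 3).mp
        have hrel' := congrArg (fun z : ℤ => (z : ZMod 3)) hrel
        beta_reduce at hrel'
        split_ifs with hpn
        · rw [if_pos hpn] at hrel'
          push_cast at hrel' ⊢
          rw [hafa, hafa, hafa, mul_comm n]
          rw [hchi] at hrel'
          linear_combination hrel'
        · rw [if_neg hpn] at hrel'
          push_cast at hrel' ⊢
          rw [hafa, hafa, mul_comm n]
          linear_combination hrel'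
      obtain ⟨m, hm⟩ := h3
      refine ⟨m, ?_⟩
      have h21 : ((p.1 : ℂ)) ^ ((2 : ℤ) - 1) = (p.1 : ℂ) := by norm_num
      rw [qCoeff_sub', qCoeff_zsmul', qCoeff_heckeTLin p.2 hpN, h21]
      simp only [hq]
      rw [← hm]
      split_ifs with hpn <;> push_cast <;> ring
  -- apply the abstract lifting lemma
  obtain ⟨v, χ, hv, hχ, 𝔪', h𝔪'max, h3𝔪', hc⟩ :=
    exists_eigen_lift T hT L (CuspForm.intLattice_fg N 2) hLspan hLstab f0 hf0L hf0'
      (fun p => a p.1) ha
  -- normalize the eigenvector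
  obtain ⟨f, hf, hfχ⟩ := exists_normalized_eigenform v hv χ
    (fun p hp hpN => by
      have := hχ ⟨p, hp⟩
      simpa only [T, dif_neg hpN] using this)
    (fun p hp hpN => by
      have := hχ ⟨p, hp⟩
      simpa only [T, dif_pos hpN] using this)
  refine ⟨f, hf, 𝔪', h𝔪'max, h3𝔪', ?_⟩
  intro ℓ hℓ _
  obtain ⟨c, hcχ, hcm⟩ := hc ⟨ℓ, hℓ⟩
  exact ⟨c, by rw [hcχ, hfχ ℓ hℓ], hcm⟩

end Fermat.Agent.S49
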