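-- Statement S51: for a semistable integral Weierstrass curve, at least one of the mod-3 and
-- mod-5 representations is irreducible.
-- Proof (Lib/S51): a reducible mod-3 (resp. mod-5) representation yields a rational root of the
-- 3-division polynomial (resp. rational symmetric functions e1, e2 of the x-coordinates of a
-- stable line in E[5]); together these give a rational point on an explicit model of X_0(15),
-- whose rational points are determined by a 2-descent; all of them contradict semistability.
import Fermat.Statements.S51
import Fermat.Agent.Lib.S51.ThreeData
import Fermat.Agent.Lib.S51.FiveData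
import Fermat.Agent.Lib.S51.NoThreeFive

set_option autoImplicit false
open WeierstrassCurve WeierstrassCurve.Affine WeierstrassCurve.Affine.Point
open CuspForm ModularFormClass UpperHalfPlane
open WeierstrassCurve

namespace Fermat.Agent.S51

theorem result (W : WeierstrassCurve ℤ) (hΔ : W.Δ ≠ 0) (hW : W.IsSemistableModel) : W.ModRepIsIrreducible 3 ∨ W.ModRepIsIrreducible 5 := by
  by_contra hcon
  rw [not_or] at hcon
  obtain ⟨x3, h3⟩ := Fermat.Agent.LibS51.three_data W hΔ hcon.1
  obtain ⟨e1, e2, h5a, h5b⟩ := Fermat.Agent.LibS51.five_data W hΔ hcon.2
  exact Fermat.Agent.S51Lib.no_three_five W hΔ hW x3 e1 e2 h3 h5a h5b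

end Fermat.Agent.S51
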