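-- Statement S53: existence of the universal deformation ring (helper7 + team).
import Fermat.Statements.S53
import Fermat.Agent.Lib.H7.S53Main

set_option autoImplicit false
set_option autoImplicit false
open GaloisRep

namespace Fermat.Agent.S53

open Fermat.Agent.S53Lib in
theorem result
    (𝒪 : Type) [CommRing 𝒪] [IsDomain 𝒪] [IsDiscreteValuationRing 𝒪]
    [IsAdicComplete (IsLocalRing.maximalIdeal 𝒪) 𝒪] [Finite (IsLocalRing.ResidueField 𝒪)]
    (ρbar : ResidualGaloisRep (IsLocalRing.ResidueField 𝒪))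
    (𝒟 : ∀ ⦃A : Type⦄ [CommRing A] [IsLocalRing A] [Algebra 𝒪 A], GaloisRepAdic A → Prop)
    (habs : ρbar.IsAbsolutelyIrreducible)
    (h𝒟 : GaloisRep.IsDeformationCondition 𝒪 𝒟)
    (hbar : 𝒟 (GaloisRepAdic.ofResidualGaloisRep ρbar))
    (hfin : GaloisRep.TangentFinite 𝒪 ρbar 𝒟) :
    Nonempty (GaloisRep.DeformationRingData 𝒪 ρbar 𝒟) := by
  obtain ⟨D⟩ := nonempty_rigidData 𝒪 ρbar habs
  obtain ⟨P⟩ := nonempty_proRepData_famI D h𝒟 hbar hfin
  have hc := matCont_theta P
  exact ⟨{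
    R := P.R
    residue_surjective := P.residue_surjective
    absIrr := habs
    ρ := matRep P.R (mapMat (P.Θ : Univ D.sl →+* P.R) (tautU D.sl)) hc
    isOfType := isOfType_theta h𝒟 P hc
    residual_isEquiv := residual_isEquiv_of_isLift 𝒪 P.R ρbar D.rb D.hrb D.equiv D.rt D.res_rt
      _ hc (isLift_theta P)
    universal := fun A _ _ _ _ _ _ hsurj ρA hρA hres =>
      universal_theta h𝒟 P hc A hsurj ρA hρA hres }⟩

end Fermat.Agent.S53
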