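-- Statement S57: patching, descent step.
import Fermat.Statements.S57
import Fermat.Agent.Lib.H5.PatchingFree

set_option autoImplicit false
open Algebra Algebra.PatchingLevel

namespace Fermat.Agent.S57

theorem result
    {𝒪 : Type} [CommRing 𝒪] [IsDomain 𝒪] [IsDiscreteValuationRing 𝒪]
    {r : ℕ} {R : Type} [CommRing R] [Algebra 𝒪 R]
    {M : Type} [AddCommGroup M] [Module R M] [Nontrivial M]
    (L : Algebra.PatchingLevel 𝒪 r R M ⊥) :
    Module.Free R M ∧ Module.annihilator R M = ⊥ ∧
      RingHom.ker L.ψ = Ideal.span (Set.range fun i : Fin r => L.φ (MvPowerSeries.X i)) := by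
  classical
  have hfree := Fermat.Agent.H5.free_N L
  have hfin := Fermat.Agent.H5.finite_N L
  have hnt := Fermat.Agent.H5.nontrivial_N L
  set I : Ideal (MvPowerSeries (Fin r) 𝒪) :=
    Ideal.span (Set.range fun i : Fin r => L.φ (MvPowerSeries.X i)) with hI
  -- a finite basis of `L.N`
  let ι := Module.Free.ChooseBasisIndex (MvPowerSeries (Fin r) 𝒪) L.N
  let b : Module.Basis ι (MvPowerSeries (Fin r) 𝒪) L.N :=
    Module.Free.chooseBasis (MvPowerSeries (Fin r) 𝒪) L.N
  let _ : Fintype ι := Module.Free.ChooseBasisIndex.fintype _ _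
  have hne : Nonempty ι := by
    by_contra h
    rw [not_nonempty_iff] at h
    have : Subsingleton L.N := b.repr.toEquiv.subsingleton
    exact not_subsingleton L.N this
  obtain ⟨j₀⟩ := hne
  -- `I` is contained in the kernel of `ψ`
  have hIker : I ≤ RingHom.ker L.ψ := by
    rw [hI, Ideal.span_le]
    rintro _ ⟨i, rfl⟩
    exact L.ψ_φ_X i
  -- coordinates of elements of `I • ⊤` lie in `I`
  have hrepr : ∀ x ∈ I • (⊤ : Submodule (MvPowerSeries (Fin r) 𝒪) L.N), ∀ j, b.repr x j ∈ I := by
    intro x hx
    refine Submodule.smul_induction_on hx ?_ ?_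
    · intro a ha n _ j
      rw [map_smul, Finsupp.smul_apply, smul_eq_mul]
      exact Ideal.mul_mem_right _ _ ha
    · intro x y hx hy j
      rw [map_add, Finsupp.add_apply]
      exact Ideal.add_mem _ (hx j) (hy j)
  -- `π` of a linear combination
  have hπsum : ∀ a : ι → MvPowerSeries (Fin r) 𝒪,
      L.π (∑ j, a j • b j) = ∑ j, L.ψ (a j) • L.π (b j) := by
    intro a
    rw [map_sum]
    exact Finset.sum_congr rfl fun j _ => L.π_smul _ _
  -- the images of the basis vectors are linearly independent over `R`
  have hli : LinearIndependent R (fun j => L.π (b j)) := by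
    rw [Fintype.linearIndependent_iff]
    intro g hg j
    choose a ha using fun j => L.ψ_surjective (g j)
    have h1 : L.π (∑ j, a j • b j) = 0 := by
      rw [hπsum, ← hg]
      exact Finset.sum_congr rfl fun j _ => by rw [ha j]
    have h2 := hrepr _ ((L.ker_π _).mp h1) j
    have h3 : b.repr (∑ j, a j • b j) j = a j := by
      rw [Module.Basis.repr_sum_self]
    rw [h3] at h2
    rw [← ha j]
    exact hIker h2
  have hsp : ⊤ ≤ Submodule.span R (Set.range fun j => L.π (b j)) := by
    intro m _
    obtain ⟨x, rfl⟩ := L.π_surjective m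
    have hx : x = ∑ j, b.repr x j • b j := (b.sum_repr x).symm
    rw [hx, hπsum]
    exact Submodule.sum_mem _ fun j _ =>
      Submodule.smul_mem _ _ (Submodule.subset_span (Set.mem_range_self j))
  let bM : Module.Basis ι R M := Module.Basis.mk hli hsp
  refine ⟨Module.Free.of_basis bM, ?_, ?_⟩
  · -- the annihilator is trivial
    rw [eq_bot_iff]
    intro c hc
    have h1 : c • L.π (b j₀) = 0 := Module.mem_annihilator.mp hc _
    have h2 := Fintype.linearIndependent_iff.mp hli (Pi.single j₀ c) (by
      rw [Finset.sum_eq_single j₀]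
      · simpa using h1
      · intro j _ hj
        simp [Pi.single_eq_of_ne hj]
      · intro h
        exact absurd (Finset.mem_univ _) h) j₀
    simpa using h2
  · -- the kernel of `ψ`
    refine le_antisymm ?_ hIker
    intro a ha
    have h1 : L.π (a • b j₀) = 0 := by
      rw [L.π_smul, RingHom.mem_ker.mp ha, zero_smul]
    have h2 := hrepr _ ((L.ker_π _).mp h1) j₀
    rw [map_smul, Finsupp.smul_apply, Module.Basis.repr_self, Finsupp.single_eq_same,
      smul_eq_mul, mul_one] at h2
    exact h2

end Fermat.Agent.S57
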